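import Mathlib
import Fermat.Agent.G.Cliff

/-!
# Program MR / TRANSFER-IN : the Boston–Lenstra–Ribet lemma, light version (helper2; prefix `mrib`)

`κ` a field of characteristic `≠ 2`, `ρV : G →* End_κ V`, `ρE : G →* End_κ E` two simple
representations satisfying the SAME quadratic relations `ρ(g)² - t(g) ρ(g) + d(g) = 0`
(`GclRel` of `G/Cliff.lean`), `E` finite dimensional with an element of `G` acting as a non-scalar.
Then `V ≃ E` equivariantly (`mrib_rep`).  No complex conjugation, no absolute irreducibility.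

* `mrib_simple_equiv` : (pure module theory) two simple modules `V`, `E` over a ring `A` such that
  `E` has a finite family `e i` with `(∀ i, a • e i = 0) → a • V = 0` are isomorphic
  (`A → ∏ E` factors `A → V`; `∏ E` is semisimple, so `V` is a summand of a submodule of `∏ E`).
* `mrib_ker` : the kernel of the action on `E` kills `V` (the BLR computation).
* `mrib_main` : the abstract statement for two algebra homomorphisms `A → End V`, `A → End E`.
* `mrib_rep` : the statement for group representations.
-/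

set_option autoImplicit false
set_option linter.unusedVariables false
set_option linter.unusedSectionVars false
set_option linter.style.haveILetI false

namespace Fermat.Agent.MR

open Fermat.Agent.G

/-! ### 1. module theory -/

section ModuleTheory

variable {A : Type*} [Ring A] {V E : Type*} [AddCommGroup V] [AddCommGroup E] [Module A V]
  [Module A E]

/-- a nonzero map from a submodule of `Fin n → E` onto a simple module `V` (`E` simple) forces
`V ≃ E` -/
theorem mrib_equiv_of_sub_pi [IsSimpleModule A V] [IsSimpleModule A E] {n : ℕ}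
    (S : Submodule A (Fin n → E)) (φ : S →ₗ[A] V) (hφ : Function.Surjective φ) :
    Nonempty (V ≃ₗ[A] E) := by
  classical
  obtain ⟨C, hC⟩ := exists_isCompl (LinearMap.ker φ)
  -- `C ≃ S ⧸ ker φ ≃ V`
  let e₁ : (S ⧸ LinearMap.ker φ) ≃ₗ[A] C := Submodule.quotientEquivOfIsCompl _ _ hC
  let e₂ : (S ⧸ LinearMap.ker φ) ≃ₗ[A] V := LinearMap.quotKerEquivOfSurjective φ hφ
  let e : C ≃ₗ[A] V := e₁.symm.trans e₂
  haveI : IsSimpleModule A C := IsSimpleModule.congr e
  haveI : Nontrivial C := IsSimpleModule.nontrivial A C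
  obtain ⟨c, hc⟩ := exists_ne (0 : C)
  have hc' : ((c : S) : Fin n → E) ≠ 0 := by
    intro h
    apply hc
    apply Subtype.ext
    apply Subtype.ext
    exact h
  obtain ⟨i, hi⟩ : ∃ i, ((c : S) : Fin n → E) i ≠ 0 := by
    by_contra hcon
    push Not at hcon
    exact hc' (funext hcon)
  let pr : C →ₗ[A] E := (LinearMap.proj i).comp (S.subtype.comp C.subtype)
  have hpr : pr ≠ 0 := by
    intro h
    apply hi
    have := LinearMap.congr_fun h c
    exact this
  have hbij : Function.Bijective pr :=
    @LinearMap.bijective_of_ne_zero A _ C _ _ E _ _ _ _ pr hpr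
  exact ⟨e.symm.trans (LinearEquiv.ofBijective pr hbij)⟩

/-- two simple modules such that the annihilator of a finite family of `E` kills `V` are
isomorphic -/
theorem mrib_simple_equiv [IsSimpleModule A V] [IsSimpleModule A E] {n : ℕ} (s : Fin n → E)
    (h : ∀ a : A, (∀ i, a • s i = 0) → ∀ v : V, a • v = 0) :
    Nonempty (V ≃ₗ[A] E) := by
  classical
  haveI : Nontrivial V := IsSimpleModule.nontrivial A V
  obtain ⟨v₀, hv₀⟩ := exists_ne (0 : V)
  let Φ : A →ₗ[A] V := LinearMap.toSpanSingleton A V v₀
  have hΦ : Function.Surjective Φ :=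
    (isSimpleModule_iff_toSpanSingleton_surjective.mp inferInstance).2 v₀ hv₀
  let Ψ : A →ₗ[A] (Fin n → E) := LinearMap.pi fun i => LinearMap.toSpanSingleton A E (s i)
  have hker : LinearMap.ker Ψ ≤ LinearMap.ker Φ := by
    intro a ha
    rw [LinearMap.mem_ker] at ha ⊢
    have h1 : ∀ i, a • s i = 0 := by
      intro i
      have := congrFun ha i
      simpa [Ψ, LinearMap.pi_apply, LinearMap.toSpanSingleton_apply] using this
    have := h a h1 v₀
    simpa [Φ, LinearMap.toSpanSingleton_apply] using this
  let φ : LinearMap.range Ψ →ₗ[A] V :=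
    (Submodule.liftQ (LinearMap.ker Ψ) Φ hker).comp (LinearMap.quotKerEquivRange Ψ).symm.toLinearMap
  have hφ : Function.Surjective φ := by
    intro v
    obtain ⟨a, ha⟩ := hΦ v
    refine ⟨LinearMap.quotKerEquivRange Ψ (Submodule.Quotient.mk a), ?_⟩
    show (Submodule.liftQ (LinearMap.ker Ψ) Φ hker)
      ((LinearMap.quotKerEquivRange Ψ).symm (LinearMap.quotKerEquivRange Ψ
        (Submodule.Quotient.mk a))) = v
    rw [LinearEquiv.symm_apply_apply, Submodule.liftQ_apply]
    exact ha
  exact mrib_equiv_of_sub_pi (LinearMap.range Ψ) φ hφ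

end ModuleTheory

/-! ### 2. the BLR computation -/

section BLR

variable {κ : Type*} [Field κ] {A : Type*} [Ring A] [Algebra κ A]
  {V E : Type*} [AddCommGroup V] [Module κ V] [AddCommGroup E] [Module κ E]

/-- **the kernel of the action on `E` kills `V`** -/
theorem mrib_ker (h2 : (2 : κ) ≠ 0) (θV : A →ₐ[κ] Module.End κ V) (θE : A →ₐ[κ] Module.End κ E)
    (τ : A → κ)
    (anti : ∀ x y : A, ∃ a : κ,
      θV x * θV y + θV y * θV x = a • (1 : Module.End κ V) + τ y • θV x + τ x • θV y ∧
      θE x * θE y + θE y * θE x = a • (1 : Module.End κ E) + τ y • θE x + τ x • θE y)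
    (sV : ∀ v : V, v ≠ 0 → ∀ w : V, ∃ x : A, θV x v = w)
    (ns : ∃ y : A, ∀ c : κ, θE y ≠ c • (1 : Module.End κ E))
    (x : A) (hx : θE x = 0) : θV x = 0 := by
  obtain ⟨y₀, hy₀⟩ := ns
  have hone : (1 : Module.End κ E) ≠ 0 := by
    intro h
    apply hy₀ 0
    rw [zero_smul]
    have : θE y₀ = θE y₀ * 1 := (mul_one _).symm
    rw [this, h, mul_zero]
  -- `τ x = 0`
  have hτ : τ x = 0 := by
    by_contra hne
    obtain ⟨a, -, hE⟩ := anti x y₀
    rw [hx, zero_mul, mul_zero, add_zero, smul_zero, add_zero] at hE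
    apply hy₀ (-(a / τ x))
    have h3 : τ x • θE y₀ = -(a • (1 : Module.End κ E)) := by
      rw [eq_neg_iff_add_eq_zero, add_comm]
      exact hE.symm
    have h4 : θE y₀ = (τ x)⁻¹ • (τ x • θE y₀) := by
      rw [smul_smul, inv_mul_cancel₀ hne, one_smul]
    rw [h4, h3, smul_neg, smul_smul, neg_smul, div_eq_inv_mul]
  -- the anticommutator on `V`
  have hanti : ∀ y : A, θV x * θV y + θV y * θV x = τ y • θV x := by
    intro y
    obtain ⟨a, hV, hE⟩ := anti x y
    rw [hx, zero_mul, mul_zero, add_zero, smul_zero, add_zero, hτ, zero_smul, add_zero] at hE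
    have ha : a = 0 := by
      by_contra hne
      apply hone
      have : (1 : Module.End κ E) = a⁻¹ • (a • (1 : Module.End κ E)) := by
        rw [smul_smul, inv_mul_cancel₀ hne, one_smul]
      rw [this, ← hE, smul_zero]
    rw [hV, ha, zero_smul, zero_add, hτ, zero_smul, add_zero]
  -- `θV x ^ 2 = 0`
  have hsq : θV x * θV x = 0 := by
    have h := hanti x
    rw [hτ, zero_smul, ← two_smul κ (θV x * θV x)] at h
    have : θV x * θV x = (2 : κ)⁻¹ • ((2 : κ) • (θV x * θV x)) := by
      rw [smul_smul, inv_mul_cancel₀ h2, one_smul]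
    rw [this, h, smul_zero]
  -- `θV x * θV y * θV x = 0`
  have htri : ∀ y : A, θV x * θV y * θV x = 0 := by
    intro y
    have h := hanti y
    have h1 : θV x * θV y = τ y • θV x - θV y * θV x := by
      rw [← h]; abel
    rw [h1, sub_mul, smul_mul_assoc, hsq, smul_zero, mul_assoc, hsq, mul_zero, sub_zero]
  by_contra hne
  obtain ⟨v, hv⟩ : ∃ v, θV x v ≠ 0 := by
    by_contra hcon
    push Not at hcon
    exact hne (LinearMap.ext hcon)
  obtain ⟨y, hy⟩ := sV (θV x v) hv v
  apply hv
  have h := LinearMap.congr_fun (htri y) v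
  rw [Module.End.mul_apply, Module.End.mul_apply, hy] at h
  exact h

/-- **BLR, light version**, for two algebra homomorphisms -/
theorem mrib_main (h2 : (2 : κ) ≠ 0) [Nontrivial V] [Module.Finite κ E]
    (θV : A →ₐ[κ] Module.End κ V) (θE : A →ₐ[κ] Module.End κ E) (τ : A → κ)
    (anti : ∀ x y : A, ∃ a : κ,
      θV x * θV y + θV y * θV x = a • (1 : Module.End κ V) + τ y • θV x + τ x • θV y ∧
      θE x * θE y + θE y * θE x = a • (1 : Module.End κ E) + τ y • θE x + τ x • θE y)
    (sV : ∀ v : V, v ≠ 0 → ∀ w : V, ∃ x : A, θV x v = w)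
    (sE : ∀ e : E, e ≠ 0 → ∀ w : E, ∃ x : A, θE x e = w)
    (ns : ∃ y : A, ∀ c : κ, θE y ≠ c • (1 : Module.End κ E)) :
    ∃ f : V ≃ₗ[κ] E, ∀ (x : A) (v : V), f (θV x v) = θE x (f v) := by
  classical
  have hker := mrib_ker h2 θV θE τ anti sV ns
  haveI : Nontrivial E := by
    obtain ⟨y₀, hy₀⟩ := ns
    by_contra hnt
    rw [not_nontrivial_iff_subsingleton] at hnt
    apply hy₀ 0
    apply LinearMap.ext
    intro e
    exact Subsingleton.elim _ _
  letI mV : Module A V := Module.compHom V (θV : A →+* Module.End κ V)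
  letI mE : Module A E := Module.compHom E (θE : A →+* Module.End κ E)
  have smulV : ∀ (a : A) (v : V), a • v = θV a v := fun a v => rfl
  have smulE : ∀ (a : A) (e : E), a • e = θE a e := fun a e => rfl
  haveI : IsSimpleModule A V := by
    rw [isSimpleModule_iff_toSpanSingleton_surjective]
    refine ⟨inferInstance, fun v hv w => ?_⟩
    obtain ⟨x, hx⟩ := sV v hv w
    exact ⟨x, by rw [LinearMap.toSpanSingleton_apply, smulV, hx]⟩
  haveI : IsSimpleModule A E := by
    rw [isSimpleModule_iff_toSpanSingleton_surjective]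
    refine ⟨inferInstance, fun e he w => ?_⟩
    obtain ⟨x, hx⟩ := sE e he w
    exact ⟨x, by rw [LinearMap.toSpanSingleton_apply, smulE, hx]⟩
  obtain ⟨n, s, hs⟩ := Module.Finite.exists_fin (R := κ) (M := E)
  obtain ⟨f⟩ := mrib_simple_equiv (A := A) (V := V) (E := E) s (by
    intro a ha v
    rw [smulV, hker a ?_, LinearMap.zero_apply]
    refine LinearMap.ext_on_range hs fun i => ?_
    rw [LinearMap.zero_apply, ← smulE]
    exact ha i)
  have hf : ∀ (x : A) (v : V), f (θV x v) = θE x (f v) := by
    intro x v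
    rw [← smulV, f.map_smul, smulE]
  refine ⟨{ toFun := f, map_add' := f.map_add, map_smul' := ?_, invFun := f.symm,
            left_inv := f.left_inv, right_inv := f.right_inv }, hf⟩
  intro c v
  have h1 : c • v = θV (algebraMap κ A c) v := by
    rw [AlgHom.commutes, Module.algebraMap_end_apply]
  have h2' : c • f v = θE (algebraMap κ A c) (f v) := by
    rw [AlgHom.commutes, Module.algebraMap_end_apply]
  simp only [RingHom.id_apply]
  rw [h1, hf, ← h2']

end BLR

/-! ### 3. group representations -/

section Rep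

variable {κ : Type*} [Field κ] {G : Type*} [Group G]
  {V E : Type*} [AddCommGroup V] [Module κ V] [AddCommGroup E] [Module κ E]

/-- the explicit constant of the anticommutator relation -/
noncomputable def mribB (t : G → κ) (x y : G →₀ κ) : κ :=
  x.sum fun g c => y.sum fun g' c' => c * c' * (t (g * g') - t g * t g')

theorem mribB_add_left (t : G → κ) (x₁ x₂ y : G →₀ κ) :
    mribB t (x₁ + x₂) y = mribB t x₁ y + mribB t x₂ y := by
  unfold mribB
  rw [Finsupp.sum_add_index']
  · intro g
    simp only [zero_mul, Finsupp.sum, Finset.sum_const_zero]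
  · intro g c₁ c₂
    rw [← Finsupp.sum_add]
    congr 1
    funext g' c'
    ring

theorem mribB_add_right (t : G → κ) (x y₁ y₂ : G →₀ κ) :
    mribB t x (y₁ + y₂) = mribB t x y₁ + mribB t x y₂ := by
  unfold mribB
  rw [← Finsupp.sum_add]
  congr 1
  funext g c
  rw [Finsupp.sum_add_index']
  · intro g'
    simp only [mul_zero, zero_mul]
  · intro g' c₁ c₂
    ring

theorem mribB_zero_left (t : G → κ) (y : G →₀ κ) : mribB t 0 y = 0 := by
  unfold mribB
  rw [Finsupp.sum_zero_index]

theorem mribB_zero_right (t : G → κ) (x : G →₀ κ) : mribB t x 0 = 0 := by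
  unfold mribB
  simp only [Finsupp.sum_zero_index]
  simp only [Finsupp.sum, Finset.sum_const_zero]

theorem mribB_single (t : G → κ) (g g' : G) (c c' : κ) :
    mribB t (Finsupp.single g c) (Finsupp.single g' c') =
      c * c' * (t (g * g') - t g * t g') := by
  unfold mribB
  rw [Finsupp.sum_single_index, Finsupp.sum_single_index]
  · simp only [mul_zero, zero_mul]
  · rw [Finsupp.sum_single_index]
    · simp only [zero_mul]
    · simp only [mul_zero, zero_mul]

/-- the anticommutator relation with its explicit constant (independent of the representation) -/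
theorem mrib_anticomm {W : Type*} [AddCommGroup W] [Module κ W] {ρ : G →* Module.End κ W}
    {t : G → κ} {d : G →* κˣ} (h : GclRel ρ t d) (x y : G →₀ κ) :
    gclPi ρ x * gclPi ρ y + gclPi ρ y * gclPi ρ x =
      mribB t x y • (1 : Module.End κ W) + gclTau t y • gclPi ρ x + gclTau t x • gclPi ρ y := by
  induction x using Finsupp.induction_linear with
  | zero => simp [mribB_zero_left]
  | add x₁ x₂ h₁ h₂ =>
    rw [map_add, map_add, add_mul, mul_add, add_add_add_comm, h₁, h₂, mribB_add_left, add_smul,
      add_smul, smul_add]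
    abel
  | single g c =>
    induction y using Finsupp.induction_linear with
    | zero => simp [mribB_zero_right]
    | add y₁ y₂ h₁ h₂ =>
      rw [map_add, map_add, add_mul, mul_add, add_add_add_comm, h₁, h₂, mribB_add_right, add_smul,
        add_smul, smul_add]
      abel
    | single g' c' =>
      rw [mribB_single, gclPi_single, gclPi_single, gclTau_single, gclTau_single,
        smul_mul_smul_comm, smul_mul_smul_comm, mul_comm c' c, ← smul_add,
        gcl_anticomm_group h g g']
      module

/-- a simple representation of dimension `≥ 2` has an element acting as a non-scalar -/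
theorem mrib_exists_nonscalar (ρE : G →* Module.End κ E) (sE : GclSimple ρE)
    (hdim : ∀ e : E, ∃ e' : E, ∀ c : κ, e' ≠ c • e) :
    ∃ g : G, ∀ c : κ, ρE g ≠ c • (1 : Module.End κ E) := by
  by_contra hcon
  push Not at hcon
  obtain ⟨e₀', he₀'⟩ := hdim 0
  have hE0 : ∃ e : E, e ≠ 0 := ⟨e₀', by simpa using he₀' 0⟩
  obtain ⟨e, he⟩ := hE0
  have hstab : ∀ g, ∀ v ∈ Submodule.span κ ({e} : Set E), ρE g v ∈ Submodule.span κ ({e} : Set E) := by
    intro g v hv
    obtain ⟨c, hc⟩ := hcon g
    rw [hc, LinearMap.smul_apply, Module.End.one_apply]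
    exact Submodule.smul_mem _ _ hv
  rcases sE _ hstab with h | h
  · apply he
    have : e ∈ Submodule.span κ ({e} : Set E) := Submodule.mem_span_singleton_self e
    rw [h] at this
    exact (Submodule.mem_bot κ).mp this
  · obtain ⟨e', he'⟩ := hdim e
    have : e' ∈ Submodule.span κ ({e} : Set E) := by rw [h]; trivial
    obtain ⟨c, hc⟩ := Submodule.mem_span_singleton.mp this
    exact he' c hc.symm

/-- **BLR, light version**: two simple representations with the same quadratic relations are
isomorphic, as soon as some element acts on `E` as a non-scalar. -/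
theorem mrib_rep (h2 : (2 : κ) ≠ 0) [Nontrivial V] [Module.Finite κ E]
    (ρV : G →* Module.End κ V) (ρE : G →* Module.End κ E) (t : G → κ) (d : G →* κˣ)
    (hV : GclRel ρV t d) (hE : GclRel ρE t d) (sV : GclSimple ρV) (sE : GclSimple ρE)
    (ns : ∃ g : G, ∀ c : κ, ρE g ≠ c • (1 : Module.End κ E)) :
    ∃ f : V ≃ₗ[κ] E, ∀ (g : G) (v : V), f (ρV g v) = ρE g (f v) := by
  classical
  let θV : MonoidAlgebra κ G →ₐ[κ] Module.End κ V := MonoidAlgebra.lift κ (Module.End κ V) G ρV
  let θE : MonoidAlgebra κ G →ₐ[κ] Module.End κ E := MonoidAlgebra.lift κ (Module.End κ E) G ρE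
  have hθV : ∀ x : MonoidAlgebra κ G, θV x = gclPi ρV x.coeff := by
    intro x
    show MonoidAlgebra.lift κ (Module.End κ V) G ρV x = _
    rw [MonoidAlgebra.lift_apply, gclPi, Finsupp.linearCombination_apply]
  have hθE : ∀ x : MonoidAlgebra κ G, θE x = gclPi ρE x.coeff := by
    intro x
    show MonoidAlgebra.lift κ (Module.End κ E) G ρE x = _
    rw [MonoidAlgebra.lift_apply, gclPi, Finsupp.linearCombination_apply]
  have DV := gcl_data_of_simple ρV t d hV sV
  have DE := gcl_data_of_simple ρE t d hE sE
  obtain ⟨f, hf⟩ := mrib_main h2 θV θE (fun x => gclTau t x.coeff)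
    (by
      intro x y
      refine ⟨mribB t x.coeff y.coeff, ?_, ?_⟩
      · rw [hθV, hθV]; exact mrib_anticomm hV _ _
      · rw [hθE, hθE]; exact mrib_anticomm hE _ _)
    (by
      intro v hv w
      obtain ⟨x, hx⟩ := DV.simple v hv w
      exact ⟨MonoidAlgebra.ofCoeff x, by rw [hθV]; exact hx⟩)
    (by
      intro e he w
      obtain ⟨x, hx⟩ := DE.simple e he w
      exact ⟨MonoidAlgebra.ofCoeff x, by rw [hθE]; exact hx⟩)
    (by
      obtain ⟨g, hg⟩ := ns
      refine ⟨MonoidAlgebra.of κ G g, fun c => ?_⟩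
      have : θE (MonoidAlgebra.of κ G g) = ρE g := MonoidAlgebra.lift_of ρE g
      rw [this]
      exact hg c)
  refine ⟨f, fun g v => ?_⟩
  have h1 : θV (MonoidAlgebra.of κ G g) = ρV g := MonoidAlgebra.lift_of ρV g
  have h2' : θE (MonoidAlgebra.of κ G g) = ρE g := MonoidAlgebra.lift_of ρE g
  rw [← h1, hf, h2']

/-- **BLR, light version, in the shape asked by the assembly** (`E` of dimension two). -/
theorem mrib_rep_two (h2 : (2 : κ) ≠ 0) [Nontrivial V] [Module.Finite κ E]
    (ρV : G →* Module.End κ V) (ρE : G →* Module.End κ E) (t : G → κ) (d : G →* κˣ)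
    (hV : GclRel ρV t d) (hE : GclRel ρE t d) (sV : GclSimple ρV) (sE : GclSimple ρE)
    (hE2 : Module.finrank κ E = 2) :
    ∃ f : V ≃ₗ[κ] E, ∀ (g : G) (v : V), f (ρV g v) = ρE g (f v) := by
  refine mrib_rep h2 ρV ρE t d hV hE sV sE (mrib_exists_nonscalar ρE sE ?_)
  intro e
  by_contra hcon
  push Not at hcon
  have h1 : Module.finrank κ E ≤ 1 := finrank_le_one e fun w => by
    obtain ⟨c, hc⟩ := hcon w
    exact ⟨c, hc.symm⟩
  omega

end Rep

end Fermat.Agent.MR
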