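import Mathlib
import Fermat.Prelude.Def_FLTPrelim_ModularRep
import Fermat.Agent.G.Asm.Main29

/-!
# Program MR, block `mri` (TRANSFER-IN), step (A) : the eigenvector in `J₀(N)(ℚ̄)[p]`

`mrie_eigen` : a normalised eigenform `f` of level `N` whose coefficients `a_ℓ(f)` are congruent,
modulo a maximal ideal `𝔪 ∋ p` of `ℤ̄`, to integers `a ℓ` for the primes `ℓ ∈ S`, `ℓ ∤ N`, gives a
non-zero `x₀ ∈ J₀(N)(ℚ̄)[p]` with `T_ℓ x₀ = a ℓ • x₀` for `ℓ ∈ S`, `ℓ ∤ N`, `ℓ ≠ p`.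

`mrie_main` : the form for `P.ModularRepOfLevel N`.

Proof: `gasm_eigen_finite` (period character mod `𝔪`, values in a finite field `κ`), the eigenvalues
lie in the prime field, compose with an `𝔽_p`-linear form `κ → 𝔽_p` and apply the multiplier map
`gasm_theta` (injective, Hecke equivariant).
-/

set_option autoImplicit false
set_option linter.unusedSectionVars false
set_option linter.unusedVariables false
set_option linter.style.haveILetI false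

noncomputable section

namespace Fermat.Agent.MR

open CongruenceSubgroup ModularCurve AlgebraicCurve Fermat.Agent.S16LB Fermat.Agent.G

/-- the residue field of a maximal ideal containing `p` has characteristic `p`. -/
theorem mrie_charP {R : Type*} [CommRing R] (𝔪 : Ideal R) [h𝔪 : 𝔪.IsMaximal] (p : ℕ)
    [hp : Fact p.Prime] (hpm : (p : R) ∈ 𝔪) :
    letI : Field (R ⧸ 𝔪) := Ideal.Quotient.field 𝔪
    CharP (R ⧸ 𝔪) p := by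
  letI : Field (R ⧸ 𝔪) := Ideal.Quotient.field 𝔪
  have h0 : ((p : ℕ) : R ⧸ 𝔪) = 0 := by
    have : Ideal.Quotient.mk 𝔪 (p : R) = 0 := Ideal.Quotient.eq_zero_iff_mem.mpr hpm
    rwa [map_natCast] at this
  obtain ⟨c, hc⟩ := CharP.exists (R ⧸ 𝔪)
  have hdvd : c ∣ p := (CharP.cast_eq_zero_iff (R ⧸ 𝔪) c p).mp h0
  rcases (Nat.dvd_prime hp.out).mp hdvd with h1 | h1
  · exact absurd h1 (CharP.char_ne_one (R ⧸ 𝔪) c)
  · exact h1 ▸ hc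

theorem mrie_eigen (N : ℕ) [NeZero N] (p : ℕ) [Fact p.Prime]
    (f : CuspForm (Gamma0 N) 2) (hf : f.IsNormalizedEigenform)
    (𝔪 : Ideal (integralClosure ℤ ℂ)) (hmax : 𝔪.IsMaximal)
    (hpm : (p : integralClosure ℤ ℂ) ∈ 𝔪) (a : ℕ → ℤ) (S : Set ℕ)
    (hcong : ∀ ℓ : ℕ, ℓ.Prime → ℓ ∈ S → ¬ ℓ ∣ N → ℓ ≠ p →
      ∃ b : integralClosure ℤ ℂ, (b : ℂ) = ModularFormClass.qCoeff f ℓ ∧
        b - ((a ℓ : ℤ) : integralClosure ℤ ℂ) ∈ 𝔪) :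
    ∃ x₀ : JZero N, x₀ ≠ 0 ∧ (p : ℤ) • x₀ = 0 ∧
      ∀ (ℓ : ℕ) (hℓ : ℓ.Prime), ℓ ∈ S → ¬ ℓ ∣ N → ℓ ≠ p →
        heckeOperatorBar N ⟨ℓ, hℓ⟩ x₀ = a ℓ • x₀ := by
  classical
  haveI := hmax
  letI : Field (integralClosure ℤ ℂ ⧸ 𝔪) := Ideal.Quotient.field 𝔪
  haveI : CharP (integralClosure ℤ ℂ ⧸ 𝔪) p := mrie_charP 𝔪 p hpm
  set φ : integralClosure ℤ ℂ →+* (integralClosure ℤ ℂ ⧸ 𝔪) := Ideal.Quotient.mk 𝔪 with hφ
  obtain ⟨κ, iF, iFin, iAlg, ι, a', c, ψ', hψ'0, hPE, ha', hιc, heig⟩ :=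
    gasm_eigen_finite N f hf (p := p) φ
  -- the eigenvalues lie in the prime field
  have hc : ∀ ℓ : ℕ, ℓ.Prime → ℓ ∈ S → ¬ ℓ ∣ N → ℓ ≠ p → c ℓ = ((a ℓ : ℤ) : κ) := by
    intro ℓ hℓ hℓS hℓN hℓp
    obtain ⟨b, hb, hbm⟩ := hcong ℓ hℓ hℓS hℓN hℓp
    have hab : a' ℓ = b := Subtype.ext ((ha' ℓ hℓ hℓN).trans hb.symm)
    have h1 : φ (a' ℓ) = ((a ℓ : ℤ) : integralClosure ℤ ℂ ⧸ 𝔪) := by
      rw [hab, ← map_intCast φ (a ℓ), ← sub_eq_zero, ← map_sub]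
      exact Ideal.Quotient.eq_zero_iff_mem.mpr hbm
    apply ι.injective
    rw [hιc ℓ hℓ hℓN, h1, map_intCast]
  -- an `𝔽_p`-linear form not killing `ψ'`
  obtain ⟨s₀, hs₀⟩ : ∃ s₀, ψ' s₀ ≠ 0 := by
    by_contra hcon
    push Not at hcon
    exact hψ'0 (AddMonoidHom.ext fun s => by rw [hcon s]; rfl)
  obtain ⟨lam, hlam⟩ : ∃ lam : κ →ₗ[ZMod p] ZMod p, lam (ψ' s₀) ≠ 0 := by
    by_contra hcon
    push Not at hcon
    exact hs₀ ((Module.forall_dual_apply_eq_zero_iff (ZMod p) (ψ' s₀)).mp hcon)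
  set χ : s16lbAb N →+ ZMod p := lam.toAddMonoidHom.comp ψ' with hχ
  have hχPE : χ ∈ gasmPEHoms N (ZMod p) := by
    intro γ hγ
    rw [hχ, AddMonoidHom.comp_apply, hPE γ hγ, map_zero]
  have hχ0 : χ ≠ 0 := by
    intro h0
    apply hlam
    have := DFunLike.congr_fun h0 s₀
    simpa [hχ] using this
  -- the multiplier map
  obtain ⟨Θ, hΘinj, hΘeq⟩ := gasm_theta N p
  refine ⟨Θ ⟨χ, hχPE⟩, ?_, ?_, ?_⟩
  · intro h0
    apply hχ0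
    have h1 : (⟨χ, hχPE⟩ : gasmPEHoms N (ZMod p)) = 0 := hΘinj (by rw [h0, map_zero])
    exact congrArg Subtype.val h1
  · rw [← map_zsmul]
    have h0 : ((p : ℤ) • (⟨χ, hχPE⟩ : gasmPEHoms N (ZMod p))) = 0 := by
      apply Subtype.ext
      apply AddMonoidHom.ext
      intro h
      rw [AddSubgroup.coe_zsmul, AddMonoidHom.smul_apply, AddSubgroup.coe_zero,
        AddMonoidHom.zero_apply, zsmul_eq_mul]
      have : ((p : ℤ) : ZMod p) = 0 := by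
        rw [Int.cast_natCast]; exact ZMod.natCast_self p
      rw [this, zero_mul]
    rw [h0, map_zero]
  · intro ℓ hℓ hℓS hℓN hℓp
    haveI : Fact ℓ.Prime := ⟨hℓ⟩
    -- `χ ∘ T_ℓ = a ℓ • χ`
    have h1 : χ.comp (gasmTr N ℓ hℓN) = a ℓ • χ := by
      apply AddMonoidHom.ext
      intro s
      have h2 := DFunLike.congr_fun (heig ℓ hℓN) s
      rw [AddMonoidHom.comp_apply] at h2
      rw [AddMonoidHom.comp_apply, hχ, AddMonoidHom.comp_apply, h2, AddMonoidHom.smul_apply,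
        hc ℓ hℓ hℓS hℓN hℓp]
      show lam (((a ℓ : ℤ) : κ) • ψ' s) = a ℓ • lam (ψ' s)
      rw [Int.cast_smul_eq_zsmul κ (a ℓ) (ψ' s), map_zsmul]
    have hmem : a ℓ • χ ∈ gasmPEHoms N (ZMod p) := (gasmPEHoms N (ZMod p)).zsmul_mem hχPE _
    have h3 := hΘeq ℓ hℓN hℓp ⟨χ, hχPE⟩ ⟨a ℓ • χ, hmem⟩ h1.symm
    rw [← h3]
    have h4 : (⟨a ℓ • χ, hmem⟩ : gasmPEHoms N (ZMod p)) = a ℓ • ⟨χ, hχPE⟩ := by
      apply Subtype.ext
      rw [AddSubgroup.coe_zsmul]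
    rw [h4, map_zsmul]

/-- **(A)** for the Frey package. -/
theorem mrie_main (P : FreyPackage) (N : ℕ) [NeZero N]
    (f : CuspForm (Gamma0 N) 2) (W : WeierstrassCurve ℤ) (𝔪 : Ideal (integralClosure ℤ ℂ))
    (hf : f.IsNormalizedEigenform) (hmax : 𝔪.IsMaximal)
    (hpm : (P.p : integralClosure ℤ ℂ) ∈ 𝔪)
    (hcong : ∀ ℓ : ℕ, ℓ.Prime → W.IsGoodPrimeFor ℓ → ¬ ℓ ∣ N → ℓ ≠ P.p →
      ∃ a : integralClosure ℤ ℂ, (a : ℂ) = ModularFormClass.qCoeff f ℓ ∧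
        a - ((W.apOfModel ℓ : ℤ) : integralClosure ℤ ℂ) ∈ 𝔪) :
    ∃ x₀ : JZero N, x₀ ≠ 0 ∧ (P.p : ℤ) • x₀ = 0 ∧
      ∀ (ℓ : ℕ) (hℓ : ℓ.Prime), W.IsGoodPrimeFor ℓ → ¬ ℓ ∣ N → ℓ ≠ P.p →
        heckeOperatorBar N ⟨ℓ, hℓ⟩ x₀ = W.apOfModel ℓ • x₀ := by
  haveI : Fact P.p.Prime := ⟨P.pp⟩
  exact mrie_eigen N P.p f hf 𝔪 hmax hpm (fun ℓ => W.apOfModel ℓ) {ℓ | W.IsGoodPrimeFor ℓ}
    (fun ℓ hℓ hℓS hℓN hℓp => hcong ℓ hℓ hℓS hℓN hℓp)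

end Fermat.Agent.MR
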