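import Mathlib
import Fermat.Agent.G.Asm.Main29

/-!
# Program MR, block `mri` (TRANSFER-IN), step (B) : a simple Galois submodule of the eigenspace

`mris_exists_simple` (pure algebra): a representation `ρ : G → End_k(M)` over a finite field, a
`G`-stable subspace `P` and a non-zero `x₀ ∈ P` with finite orbit give a finite non-zero `G`-stable
subspace `U ≤ P` which is minimal (simple).

`mris_main` : the instance `M = J₀(N)(ℚ̄)[p]`, `P` = the joint eigenspace of the `T_ℓ`.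
-/

set_option autoImplicit false
set_option linter.unusedSectionVars false
set_option linter.unusedVariables false
set_option linter.style.haveILetI false

noncomputable section

namespace Fermat.Agent.MR

open CongruenceSubgroup ModularCurve AlgebraicCurve Fermat.Agent.G

section Abstract

variable {G : Type*} [Group G] {k : Type*} [Field k] {M : Type*} [AddCommGroup M] [Module k M]

/-- the span of an orbit is stable. -/
theorem mris_span_stable (ρ : G →* Module.End k M) (x₀ : M) (g : G) (x : M)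
    (hx : x ∈ Submodule.span k (Set.range fun h : G => ρ h x₀)) :
    ρ g x ∈ Submodule.span k (Set.range fun h : G => ρ h x₀) := by
  induction hx using Submodule.span_induction with
  | mem y hy =>
    obtain ⟨h, rfl⟩ := hy
    refine Submodule.subset_span ⟨g * h, ?_⟩
    show ρ (g * h) x₀ = ρ g (ρ h x₀)
    rw [map_mul, Module.End.mul_apply]
  | zero => rw [map_zero]; exact Submodule.zero_mem _
  | add y z _ _ hy hz => rw [map_add]; exact Submodule.add_mem _ hy hz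
  | smul c y _ hy => rw [map_smul]; exact Submodule.smul_mem _ c hy

theorem mris_exists_simple [Finite k] (ρ : G →* Module.End k M) (P : Submodule k M)
    (hP : ∀ g, ∀ x ∈ P, ρ g x ∈ P) (x₀ : M) (hx₀ : x₀ ∈ P) (hne : x₀ ≠ 0)
    (horb : (Set.range fun g : G => ρ g x₀).Finite) :
    ∃ U : Submodule k M, U ≤ P ∧ U ≠ ⊥ ∧ Module.Finite k U ∧ (∀ g, ∀ x ∈ U, ρ g x ∈ U) ∧
      ∀ U' : Submodule k M, U' ≤ U → (∀ g, ∀ x ∈ U', ρ g x ∈ U') → U' = ⊥ ∨ U' = U := by
  classical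
  set S : Submodule k M := Submodule.span k (Set.range fun g : G => ρ g x₀) with hS
  have hSP : S ≤ P := by
    rw [hS, Submodule.span_le]
    rintro _ ⟨g, rfl⟩
    exact hP g x₀ hx₀
  have hx₀S : x₀ ∈ S := Submodule.subset_span ⟨1, by simp⟩
  have hSfin : Module.Finite k S := Module.Finite.span_of_finite k horb
  let T : Set (Submodule k M) := {U | U ≤ S ∧ U ≠ ⊥ ∧ ∀ g, ∀ x ∈ U, ρ g x ∈ U}
  have hST : S ∈ T := by
    refine ⟨le_rfl, ?_, fun g x hx => mris_span_stable ρ x₀ g x hx⟩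
    intro h0
    rw [h0] at hx₀S
    exact hne ((Submodule.mem_bot k).mp hx₀S)
  obtain ⟨U, hUT, hUmin⟩ := WellFounded.has_min
    (measure fun U : Submodule k M => Module.finrank k U).wf T ⟨S, hST⟩
  obtain ⟨hUS, hU0, hUst⟩ := hUT
  haveI : Module.Finite k U := by
    haveI : IsNoetherian k S := IsNoetherian.iff_fg.mpr hSfin
    exact Module.Finite.of_injective (Submodule.inclusion hUS) (Submodule.inclusion_injective hUS)
  refine ⟨U, hUS.trans hSP, hU0, inferInstance, hUst, fun U' hU'U hU'st => ?_⟩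
  by_cases h0 : U' = ⊥
  · exact Or.inl h0
  · right
    have hU'T : U' ∈ T := ⟨hU'U.trans hUS, h0, hU'st⟩
    have hnlt : ¬ Module.finrank k U' < Module.finrank k U := hUmin U' hU'T
    exact Submodule.eq_of_le_of_finrank_le hU'U (not_lt.mp hnlt)

end Abstract

section Modular

local notation "Qb" => AlgebraicClosure ℚ
local notation "GQ" => (AlgebraicClosure ℚ ≃ₐ[ℚ] AlgebraicClosure ℚ)

local instance mris_isAlgebraic : Algebra.IsAlgebraic ℚ (AlgebraicClosure ℚ) :=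
  AlgebraicClosure.isAlgebraic ℚ
local instance mris_isAlgClosure : IsAlgClosure ℚ (AlgebraicClosure ℚ) :=
  ⟨inferInstance, inferInstance⟩
local instance mris_normal : Normal ℚ (AlgebraicClosure ℚ) :=
  IsAlgClosure.normal ℚ (AlgebraicClosure ℚ)

variable (N : ℕ) [NeZero N] (p : ℕ) [Fact p.Prime]

/-- the orbit of a point of `J₀(N)(ℚ̄)[p]` is finite. -/
theorem mris_orbit_finite (x : gasmJp N p) :
    (Set.range fun σ : GQ => JZero.torsionGaloisRep N p σ x).Finite := by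
  obtain ⟨E, hE1, hE2, hE3⟩ := gopq_exists_fixing_finset_JZero_galois N {(x : JZero N)}
  have hE1' : FiniteDimensional ℚ E := hE1
  have hfix : ∀ σ : GQ, σ ∈ E.fixingSubgroup → JZero.torsionGaloisRep N p σ x = x := by
    intro σ hσ
    apply Subtype.ext
    rw [JZero.coe_torsionGaloisRep_apply]
    exact hE3 σ hσ _ (Finset.mem_singleton_self _)
  have hfact : Function.FactorsThrough (fun σ : GQ => JZero.torsionGaloisRep N p σ x)
      (fun σ : GQ => (σ : Qb →ₐ[ℚ] Qb).comp E.val) := by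
    intro σ τ h
    have hmem : τ⁻¹ * σ ∈ E.fixingSubgroup := by
      rw [IntermediateField.mem_fixingSubgroup_iff]
      intro y hy
      have := DFunLike.congr_fun h ⟨y, hy⟩
      show τ⁻¹ (σ y) = y
      have h2 : σ y = τ y := this
      rw [h2]
      exact τ.symm_apply_apply y
    have := hfix _ hmem
    show JZero.torsionGaloisRep N p σ x = JZero.torsionGaloisRep N p τ x
    have h3 : σ = τ * (τ⁻¹ * σ) := (mul_inv_cancel_left τ σ).symm
    calc JZero.torsionGaloisRep N p σ x = JZero.torsionGaloisRep N p (τ * (τ⁻¹ * σ)) x :=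
          congrArg (fun g => JZero.torsionGaloisRep N p g x) h3
      _ = JZero.torsionGaloisRep N p τ (JZero.torsionGaloisRep N p (τ⁻¹ * σ) x) :=
          LinearMap.congr_fun (map_mul (JZero.torsionGaloisRep N p) τ (τ⁻¹ * σ)) x
      _ = JZero.torsionGaloisRep N p τ x := congrArg _ this
  obtain ⟨e, he⟩ := (Function.factorsThrough_iff _).mp hfact
  haveI : Finite (↥E →ₐ[ℚ] Qb) := inferInstance
  refine (Set.finite_range e).subset ?_
  rintro _ ⟨σ, rfl⟩
  exact ⟨(σ : Qb →ₐ[ℚ] Qb).comp E.val, (congrFun he σ).symm⟩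

/-- the joint eigenspace of the `T_ℓ`, `ℓ ∈ S` (primes not dividing `N`), eigenvalues `a ℓ`, in
`J₀(N)(ℚ̄)[p]`. -/
def mrisEig (a : ℕ → ℤ) (S : Set ℕ) : Submodule (ZMod p) (gasmJp N p) where
  carrier := {x | ∀ (ℓ : ℕ) (hℓ : ℓ.Prime), ℓ ∈ S →
    heckeOperatorBar N ⟨ℓ, hℓ⟩ (x : JZero N) = a ℓ • (x : JZero N)}
  zero_mem' := by
    intro ℓ hℓ _
    rw [AddSubgroup.coe_zero, map_zero, smul_zero]
  add_mem' := by
    intro x y hx hy ℓ hℓ hS
    rw [AddSubgroup.coe_add, map_add, hx ℓ hℓ hS, hy ℓ hℓ hS, zsmul_add]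
  smul_mem' := by
    intro c x hx ℓ hℓ hS
    obtain ⟨n, rfl⟩ := ZMod.intCast_surjective c
    rw [Int.cast_smul_eq_zsmul, AddSubgroup.coe_zsmul, map_zsmul, hx ℓ hℓ hS, smul_comm]

theorem mem_mrisEig (a : ℕ → ℤ) (S : Set ℕ) (x : gasmJp N p) :
    x ∈ mrisEig N p a S ↔ ∀ (ℓ : ℕ) (hℓ : ℓ.Prime), ℓ ∈ S →
      heckeOperatorBar N ⟨ℓ, hℓ⟩ (x : JZero N) = a ℓ • (x : JZero N) := Iff.rfl

theorem mrisEig_stable (a : ℕ → ℤ) (S : Set ℕ) (σ : GQ) (x : gasmJp N p)
    (hx : x ∈ mrisEig N p a S) : JZero.torsionGaloisRep N p σ x ∈ mrisEig N p a S := by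
  intro ℓ hℓ hS
  rw [JZero.coe_torsionGaloisRep_apply, ← gasm_hecke_galois N ⟨ℓ, hℓ⟩ σ (x : JZero N),
    hx ℓ hℓ hS]
  exact map_zsmul (DistribSMul.toAddMonoidHom (JZero N) σ) (a ℓ) (x : JZero N)

/-- **(B)** a simple `G_ℚ`-submodule of the eigenspace. -/
theorem mris_main (a : ℕ → ℤ) (S : Set ℕ) (x₀ : JZero N) (hx₀ : x₀ ≠ 0)
    (hpx₀ : (p : ℤ) • x₀ = 0)
    (heig : ∀ (ℓ : ℕ) (hℓ : ℓ.Prime), ℓ ∈ S → heckeOperatorBar N ⟨ℓ, hℓ⟩ x₀ = a ℓ • x₀) :
    ∃ U : Submodule (ZMod p) (gasmJp N p), U ≠ ⊥ ∧ Module.Finite (ZMod p) U ∧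
      (∀ (σ : GQ), ∀ x ∈ U, JZero.torsionGaloisRep N p σ x ∈ U) ∧
      (∀ U' : Submodule (ZMod p) (gasmJp N p), U' ≤ U →
        (∀ (σ : GQ), ∀ x ∈ U', JZero.torsionGaloisRep N p σ x ∈ U') → U' = ⊥ ∨ U' = U) ∧
      ∀ x ∈ U, ∀ (ℓ : ℕ) (hℓ : ℓ.Prime), ℓ ∈ S →
        heckeOperatorBar N ⟨ℓ, hℓ⟩ (x : JZero N) = a ℓ • (x : JZero N) := by
  have hmem : x₀ ∈ gasmJp N p := Pic0.mem_torsion.mpr hpx₀
  have hy₀ne : (⟨x₀, hmem⟩ : gasmJp N p) ≠ 0 := fun h => hx₀ (congrArg Subtype.val h)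
  have hy₀P : (⟨x₀, hmem⟩ : gasmJp N p) ∈ mrisEig N p a S := fun ℓ hℓ hS => heig ℓ hℓ hS
  obtain ⟨U, hUP, hU0, hUfin, hUst, hUmin⟩ :=
    mris_exists_simple (JZero.torsionGaloisRep N p) (mrisEig N p a S)
      (fun σ x hx => mrisEig_stable N p a S σ x hx) (⟨x₀, hmem⟩ : gasmJp N p) hy₀P hy₀ne
      (mris_orbit_finite N p _)
  exact ⟨U, hU0, hUfin, hUst, hUmin, fun x hx ℓ hℓ hS => hUP hx ℓ hℓ hS⟩

end Modular

end Fermat.Agent.MR
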