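import Mathlib
import Fermat.Agent.G.Res
import Fermat.Agent.G.Asm.Main29
import Fermat.Agent.WE.Lift
import Fermat.Agent.S05.VariableChangeGalois
import Fermat.Agent.S13.TorsionField
import Fermat.Agent.S41.NE.Tors
import Fermat.Agent.S41.NE.Main
import Fermat.Agent.MR.In.Simple

/-!
# Program MR, block `mri` (TRANSFER-IN), step (C) : the common quadratic relation

`U ≤ J₀(N)(ℚ̄)[p]` a finite `G_ℚ`-stable subspace on which `T_ℓ = a_ℓ(W)`, `E/ℚ` an elliptic curve
with integral model `W`.  Then there is `t : G_ℚ → 𝔽_p` such that BOTH `ρ_U` and `ρ_{E[p]}` satisfy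
`ρ(g)² = t(g) ρ(g) - χ_p(g)` (`GclRel … t (garChi p)` of `G/Cliff`) : `mrif_main`.

Ingredients: Eichler–Shimura on `J₀(N)[p]` (`gasm_es`), the Frobenius relation on `E[p]`
(`WE.we_lift_point`, transported along the change of variables), and the weak Frobenius density
in the form `gar_exists_quadratic` (G/Res) applied to the PRODUCT representation on `U × E[p]`.
-/

set_option autoImplicit false
set_option linter.unusedSectionVars false
set_option linter.unusedVariables false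
set_option linter.style.haveILetI false

noncomputable section

namespace Fermat.Agent.MR

open CongruenceSubgroup ModularCurve AlgebraicCurve Fermat.Agent.G
open WeierstrassCurve WeierstrassCurve.Affine WeierstrassCurve.Affine.Point

local notation "Qb" => AlgebraicClosure ℚ
local notation "GQ" => (AlgebraicClosure ℚ ≃ₐ[ℚ] AlgebraicClosure ℚ)

section Abstract

variable {G : Type*} [Group G] {k : Type*} [Field k] {V E : Type*} [AddCommGroup V] [Module k V]
  [AddCommGroup E] [Module k E]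

/-- the product of two representations. -/
def mrifProd (ρV : G →* Module.End k V) (ρE : G →* Module.End k E) :
    G →* Module.End k (V × E) where
  toFun g := (ρV g).prodMap (ρE g)
  map_one' := by rw [map_one, map_one]; exact LinearMap.prodMap_one
  map_mul' g h := by rw [map_mul, map_mul]; exact (LinearMap.prodMap_mul _ _ _ _).symm

@[simp] theorem mrifProd_apply (ρV : G →* Module.End k V) (ρE : G →* Module.End k E) (g : G)
    (w : V × E) : mrifProd ρV ρE g w = (ρV g w.1, ρE g w.2) := rfl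

theorem mrif_rel_fst (ρV : G →* Module.End k V) (ρE : G →* Module.End k E) (g : G) (t d : k)
    (h : mrifProd ρV ρE g * mrifProd ρV ρE g - t • mrifProd ρV ρE g
      + d • (1 : Module.End k (V × E)) = 0) :
    ρV g * ρV g = t • ρV g - d • (1 : Module.End k V) := by
  apply LinearMap.ext
  intro v
  have h1 := congrArg Prod.fst (LinearMap.congr_fun h (v, 0))
  simp only [LinearMap.add_apply, LinearMap.sub_apply, Module.End.mul_apply, LinearMap.smul_apply,
    Module.End.one_apply, mrifProd_apply, Prod.fst_add, Prod.fst_sub, Prod.smul_fst,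
    LinearMap.zero_apply, Prod.fst_zero] at h1
  simp only [LinearMap.sub_apply, Module.End.mul_apply, LinearMap.smul_apply,
    Module.End.one_apply]
  rw [← sub_eq_zero, ← h1]
  abel

theorem mrif_rel_snd (ρV : G →* Module.End k V) (ρE : G →* Module.End k E) (g : G) (t d : k)
    (h : mrifProd ρV ρE g * mrifProd ρV ρE g - t • mrifProd ρV ρE g
      + d • (1 : Module.End k (V × E)) = 0) :
    ρE g * ρE g = t • ρE g - d • (1 : Module.End k E) := by
  apply LinearMap.ext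
  intro v
  have h1 := congrArg Prod.snd (LinearMap.congr_fun h (0, v))
  simp only [LinearMap.add_apply, LinearMap.sub_apply, Module.End.mul_apply, LinearMap.smul_apply,
    Module.End.one_apply, mrifProd_apply, Prod.snd_add, Prod.snd_sub, Prod.smul_snd,
    LinearMap.zero_apply, Prod.snd_zero] at h1
  simp only [LinearMap.sub_apply, Module.End.mul_apply, LinearMap.smul_apply,
    Module.End.one_apply]
  rw [← sub_eq_zero, ← h1]
  abel

/-- a quadratic relation on both factors gives one on the product. -/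
theorem mrif_rel_prod (ρV : G →* Module.End k V) (ρE : G →* Module.End k E) (g : G) (t d : k)
    (hV : ∀ v, ρV g (ρV g v) - t • ρV g v + d • v = 0)
    (hE : ∀ e, ρE g (ρE g e) - t • ρE g e + d • e = 0) :
    mrifProd ρV ρE g * mrifProd ρV ρE g - t • mrifProd ρV ρE g
      + d • (1 : Module.End k (V × E)) = 0 := by
  apply LinearMap.ext
  rintro ⟨v, e⟩
  simp only [LinearMap.add_apply, LinearMap.sub_apply, Module.End.mul_apply, LinearMap.smul_apply,
    Module.End.one_apply, mrifProd_apply, LinearMap.zero_apply]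
  exact Prod.ext (hV v) (hE e)

end Abstract

/-! ### the `E`-side -/

section ESide

/-- the Frobenius relation on the torsion of an elliptic curve over `ℚ` with integral model `W`. -/
theorem mrif_frob_E (E : WeierstrassCurve ℚ) {W : WeierstrassCurve ℤ}
    (hW : W.IsIntegralModelOf E) {ℓ : ℕ} (hℓ : ℓ.Prime) (hgood : W.IsGoodPrimeFor ℓ)
    (A : ValuationSubring Qb) (hA : A.LiesOverPrime ℓ) (σ : GQ) (hσ : A.IsFrobeniusAt σ ℓ)
    {n : ℕ} (hn : ¬ ℓ ∣ n) (x : Submodule.torsionBy ℤ (E⁄Qb).Point n) :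
    σ • σ • x - W.apOfModel ℓ • σ • x + (ℓ : ℤ) • x = 0 := by
  obtain ⟨C, hC⟩ := hW
  set e := Fermat.Agent.S05.vcPointBC (K := Qb) C hC.symm with he
  apply Subtype.ext
  have hx : (n : ℤ) • (x : (E⁄Qb).Point) = 0 := (Submodule.mem_torsionBy_iff _ _).mp x.2
  have hQ : n • e.symm (x : (E⁄Qb).Point) = 0 := by
    rw [← map_nsmul, ← natCast_zsmul, hx, _root_.map_zero]
  have h1 := Fermat.Agent.WE.we_lift_point W hℓ hgood A hA σ hσ hn (e.symm (x : (E⁄Qb).Point)) hQ
  have h2 := congrArg e h1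
  rw [map_add, map_sub, map_zsmul, map_zsmul, he] at h2
  simp only [Fermat.Agent.S05.vcPointBC_smul] at h2
  rw [← he, AddEquiv.apply_symm_apply, _root_.map_zero] at h2
  exact h2

end ESide

/-! ### the `J`-side -/

section JSide

variable (N : ℕ) [NeZero N] (p : ℕ) [Fact p.Prime]

/-- the Galois representation on a stable subspace of `J₀(N)(ℚ̄)[p]`. -/
def mrifRhoU (U : Submodule (ZMod p) (gasmJp N p))
    (hU : ∀ σ : GQ, ∀ x ∈ U, JZero.torsionGaloisRep N p σ x ∈ U) :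
    GQ →* Module.End (ZMod p) U where
  toFun σ := (JZero.torsionGaloisRep N p σ).restrict (hU σ)
  map_one' := by
    apply LinearMap.ext
    intro x
    apply Subtype.ext
    show JZero.torsionGaloisRep N p 1 (x : gasmJp N p) = (x : gasmJp N p)
    exact LinearMap.congr_fun (map_one (JZero.torsionGaloisRep N p)) (x : gasmJp N p)
  map_mul' σ τ := by
    apply LinearMap.ext
    intro x
    apply Subtype.ext
    show JZero.torsionGaloisRep N p (σ * τ) (x : gasmJp N p)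
      = JZero.torsionGaloisRep N p σ (JZero.torsionGaloisRep N p τ (x : gasmJp N p))
    exact LinearMap.congr_fun (map_mul (JZero.torsionGaloisRep N p) σ τ) (x : gasmJp N p)

theorem mrifRhoU_coe (U : Submodule (ZMod p) (gasmJp N p))
    (hU : ∀ σ : GQ, ∀ x ∈ U, JZero.torsionGaloisRep N p σ x ∈ U) (σ : GQ) (x : U) :
    (((mrifRhoU N p U hU σ x : U) : gasmJp N p) : JZero N) = σ • ((x : gasmJp N p) : JZero N) :=
  rfl

/-- Eichler–Shimura on a Hecke-eigen stable subspace. -/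
theorem mrif_frob_U (a : ℤ) (U : Submodule (ZMod p) (gasmJp N p))
    (hU : ∀ σ : GQ, ∀ x ∈ U, JZero.torsionGaloisRep N p σ x ∈ U)
    (ℓ : ℕ) (hℓ : ℓ.Prime) (hℓNp : ¬ ℓ ∣ N * p)
    (heig : ∀ x ∈ U, heckeOperatorBar N ⟨ℓ, hℓ⟩ ((x : gasmJp N p) : JZero N)
      = a • ((x : gasmJp N p) : JZero N))
    (A : ValuationSubring Qb) (hA : A.LiesOverPrime ℓ) (σ : GQ) (hσ : A.IsFrobeniusAt σ ℓ)
    (x : U) :
    mrifRhoU N p U hU σ (mrifRhoU N p U hU σ x) - ((a : ℤ) : ZMod p) • mrifRhoU N p U hU σ x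
      + ((ℓ : ℕ) : ZMod p) • x = 0 := by
  have e1 : ((a : ℤ) : ZMod p) • mrifRhoU N p U hU σ x = a • mrifRhoU N p U hU σ x :=
    Int.cast_smul_eq_zsmul (ZMod p) a _
  have e2 : ((ℓ : ℕ) : ZMod p) • x = ℓ • x := Nat.cast_smul_eq_nsmul (ZMod p) ℓ x
  refine (congrArg₂ (fun u v => mrifRhoU N p U hU σ (mrifRhoU N p U hU σ x) - u + v) e1 e2).trans ?_
  apply Subtype.ext
  apply Subtype.ext
  have hx : ∃ n : ℕ, p ^ n • ((x : gasmJp N p) : JZero N) = 0 := by
    refine ⟨1, ?_⟩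
    rw [pow_one, ← Nat.cast_smul_eq_nsmul ℤ]
    exact Pic0.mem_torsion.mp (x : gasmJp N p).2
  have h1 := (gasm_es N p ℓ hℓ hℓNp A hA).2 σ hσ ((x : gasmJp N p) : JZero N) hx
  have h2 := heig (mrifRhoU N p U hU σ x) (mrifRhoU N p U hU σ x).2
  rw [mrifRhoU_coe] at h2
  rw [h2] at h1
  exact h1

end JSide

/-! ### finite level -/

section Level

theorem mrif_level_prod {V E : Type} [AddCommGroup V] [AddCommGroup E] {k : Type} [Field k]
    [Module k V] [Module k E] (ρV : GQ →* Module.End k V) (ρE : GQ →* Module.End k E)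
    (hV : GaloisFactorsThroughFiniteLevel ρV) (hE : GaloisFactorsThroughFiniteLevel ρE) :
    GaloisFactorsThroughFiniteLevel (mrifProd ρV ρE) := by
  obtain ⟨L₁, hL₁, h₁⟩ := hV
  obtain ⟨L₂, hL₂, h₂⟩ := hE
  haveI := hL₁
  haveI := hL₂
  refine ⟨L₁ ⊔ L₂, IntermediateField.finiteDimensional_sup L₁ L₂, fun σ hσ => ?_⟩
  have e₁ := h₁ σ (fun x hx => hσ x ((le_sup_left : L₁ ≤ L₁ ⊔ L₂) hx))
  have e₂ := h₂ σ (fun x hx => hσ x ((le_sup_right : L₂ ≤ L₁ ⊔ L₂) hx))
  apply LinearMap.ext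
  rintro ⟨v, e⟩
  rw [mrifProd_apply, e₁, e₂]
  rfl

variable (N : ℕ) [NeZero N] (p : ℕ) [Fact p.Prime]

theorem mrif_level_U (U : Submodule (ZMod p) (gasmJp N p))
    (hU : ∀ σ : GQ, ∀ x ∈ U, JZero.torsionGaloisRep N p σ x ∈ U) [Module.Finite (ZMod p) U] :
    GaloisFactorsThroughFiniteLevel (mrifRhoU N p U hU) := by
  classical
  haveI : Finite U := Module.finite_of_finite (ZMod p)
  haveI : Fintype U := Fintype.ofFinite U
  obtain ⟨E, hE1, hE2, hE3⟩ := gopq_exists_fixing_finset_JZero_galois N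
    (Finset.univ.image (fun x : U => ((x : gasmJp N p) : JZero N)))
  refine ⟨E, hE1, fun σ hσ => ?_⟩
  apply LinearMap.ext
  intro x
  apply Subtype.ext
  apply Subtype.ext
  show σ • ((x : gasmJp N p) : JZero N) = ((x : gasmJp N p) : JZero N)
  exact hE3 σ ((IntermediateField.mem_fixingSubgroup_iff E σ).mpr hσ) _
    (Finset.mem_image.mpr ⟨x, Finset.mem_univ _, rfl⟩)

theorem mrif_level_E (E : WeierstrassCurve ℚ) (n : ℕ)
    [Finite (Submodule.torsionBy ℤ (E⁄Qb).Point n)] :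
    GaloisFactorsThroughFiniteLevel (galoisRepModuleEnd (K := Qb) ℚ E n) := by
  obtain ⟨F, hF, hfix⟩ := Fermat.Agent.S13.exists_finite_fixing_torsion E n
  refine ⟨F, hF, fun σ hσ => ?_⟩
  apply LinearMap.ext
  intro x
  exact hfix σ ((IntermediateField.mem_fixingSubgroup_iff F σ).mpr hσ) x

end Level

/-! ### the main statement of step (C) -/

section Main

variable (N : ℕ) [NeZero N] (p : ℕ) [Fact p.Prime]

/-- the abstract form: two representations of `G_ℚ` over `𝔽_p` of finite level whose Frobenius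
elements at almost all primes satisfy the same quadratic relation `φ² - a_ℓ φ + ℓ = 0`. -/
theorem mrif_main_aux {V E : Type} [AddCommGroup V] [Module (ZMod p) V] [AddCommGroup E]
    [Module (ZMod p) E] (ρV : GQ →* Module.End (ZMod p) V) (ρE : GQ →* Module.End (ZMod p) E)
    (hlevV : GaloisFactorsThroughFiniteLevel ρV) (hlevE : GaloisFactorsThroughFiniteLevel ρE)
    (N' : ℕ) (hN' : N' ≠ 0) (a : ℕ → ZMod p)
    (hfV : ∀ ℓ : ℕ, ℓ.Prime → ¬ ℓ ∣ N' * p → ∀ A : ValuationSubring Qb, A.LiesOverPrime ℓ →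
      ∀ σ : GQ, A.IsFrobeniusAt σ ℓ → ∀ x : V,
        ρV σ (ρV σ x) - a ℓ • ρV σ x + ((ℓ : ℕ) : ZMod p) • x = 0)
    (hfE : ∀ ℓ : ℕ, ℓ.Prime → ¬ ℓ ∣ N' * p → ∀ A : ValuationSubring Qb, A.LiesOverPrime ℓ →
      ∀ σ : GQ, A.IsFrobeniusAt σ ℓ → ∀ x : E,
        ρE σ (ρE σ x) - a ℓ • ρE σ x + ((ℓ : ℕ) : ZMod p) • x = 0) :
    ∃ t : GQ → ZMod p, GclRel ρV t (garChi (κ := ZMod p) p) ∧
      GclRel ρE t (garChi (κ := ZMod p) p) := by
  haveI : CharP (ZMod p) p := ZMod.charP p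
  have hq := gar_exists_quadratic (κ := ZMod p) p N' hN' (mrifProd ρV ρE)
    (mrif_level_prod ρV ρE hlevV hlevE) a
    (fun ℓ hℓ hℓN' A hA σ hσ => mrif_rel_prod ρV ρE σ _ _ (hfV ℓ hℓ hℓN' A hA σ hσ)
      (hfE ℓ hℓ hℓN' A hA σ hσ))
  choose t ht using hq
  exact ⟨t, fun g => mrif_rel_fst ρV ρE g _ _ (ht g), fun g => mrif_rel_snd ρV ρE g _ _ (ht g)⟩

theorem mrif_main (E : WeierstrassCurve ℚ) [E.IsElliptic] {W : WeierstrassCurve ℤ}
    (hW : W.IsIntegralModelOf E) (hp2 : p ≠ 2)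
    (U : Submodule (ZMod p) (gasmJp N p))
    (hU : ∀ σ : GQ, ∀ x ∈ U, JZero.torsionGaloisRep N p σ x ∈ U) [Module.Finite (ZMod p) U]
    (heig : ∀ x ∈ U, ∀ (ℓ : ℕ) (hℓ : ℓ.Prime), W.IsGoodPrimeFor ℓ → ¬ ℓ ∣ N → ℓ ≠ p →
      heckeOperatorBar N ⟨ℓ, hℓ⟩ ((x : gasmJp N p) : JZero N)
        = W.apOfModel ℓ • ((x : gasmJp N p) : JZero N)) :
    ∃ t : GQ → ZMod p, GclRel (mrifRhoU N p U hU) t (garChi (κ := ZMod p) p) ∧
      GclRel (galoisRepModuleEnd (K := Qb) ℚ E p) t (garChi (κ := ZMod p) p) := by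
  classical
  have hp : p.Prime := Fact.out
  have hcard : Nat.card (Submodule.torsionBy ℤ (E⁄Qb).Point p) = p ^ 2 :=
    Fermat.Agent.S41.s41net_card_torsionBy_rat E hp hp2
  haveI hfin : Finite (Submodule.torsionBy ℤ (E⁄Qb).Point p) :=
    Nat.finite_of_card_ne_zero (hcard ▸ pow_ne_zero 2 hp.pos.ne')
  have hΔ : W.Δ ≠ 0 := Fermat.Agent.S41.s41ne_Δ_ne_zero E hW
  have hN'0 : N * W.Δ.natAbs ≠ 0 := Nat.mul_ne_zero (NeZero.ne N) (Int.natAbs_ne_zero.mpr hΔ)
  have hprimes : ∀ ℓ : ℕ, ℓ.Prime → ¬ ℓ ∣ N * W.Δ.natAbs * p →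
      ¬ ℓ ∣ N ∧ ℓ ≠ p ∧ ¬ ℓ ∣ N * p ∧ W.IsGoodPrimeFor ℓ := by
    intro ℓ hℓ hℓN'p
    have hℓN : ¬ ℓ ∣ N := fun h => hℓN'p ((h.mul_right _).mul_right _)
    have hℓp : ℓ ≠ p := fun h => hℓN'p (h ▸ dvd_mul_left _ _)
    refine ⟨hℓN, hℓp, ?_, ?_⟩
    · intro h
      rcases (Nat.Prime.dvd_mul hℓ).mp h with h | h
      · exact hℓN h
      · exact hℓp ((Nat.prime_dvd_prime_iff_eq hℓ hp).mp h)
    · intro hdvd
      apply hℓN'p
      have : ℓ ∣ W.Δ.natAbs := Int.natCast_dvd.1 hdvd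
      exact (this.mul_left N).mul_right p
  refine mrif_main_aux p (mrifRhoU N p U hU) (galoisRepModuleEnd (K := Qb) ℚ E p)
    (mrif_level_U N p U hU) (mrif_level_E E p) (N * W.Δ.natAbs) hN'0
    (fun ℓ => ((W.apOfModel ℓ : ℤ) : ZMod p)) ?_ ?_
  · intro ℓ hℓ hℓN'p A hA σ hσ x
    have h4 := hprimes ℓ hℓ hℓN'p
    exact mrif_frob_U N p (W.apOfModel ℓ) U hU ℓ hℓ h4.2.2.1
      (fun y hy => heig y hy ℓ hℓ h4.2.2.2 h4.1 h4.2.1) A hA σ hσ x
  · intro ℓ hℓ hℓN'p A hA σ hσ x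
    obtain ⟨hℓN, hℓp, hℓNp, hgood⟩ := hprimes ℓ hℓ hℓN'p
    have h1 := mrif_frob_E E hW hℓ hgood A hA σ hσ (n := p)
      (fun h => hℓp ((Nat.prime_dvd_prime_iff_eq hℓ hp).mp h)) x
    have e1 : ((W.apOfModel ℓ : ℤ) : ZMod p) • galoisRepModuleEnd (K := Qb) ℚ E p σ x
        = W.apOfModel ℓ • galoisRepModuleEnd (K := Qb) ℚ E p σ x :=
      Int.cast_smul_eq_zsmul (ZMod p) _ _
    have e2 : ((ℓ : ℕ) : ZMod p) • x = (ℓ : ℤ) • x := by
      rw [Nat.cast_smul_eq_nsmul (ZMod p) ℓ x, natCast_zsmul]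
    refine (congrArg₂ (fun u v => galoisRepModuleEnd (K := Qb) ℚ E p σ
      (galoisRepModuleEnd (K := Qb) ℚ E p σ x) - u + v) e1 e2).trans ?_
    exact h1

end Main

end Fermat.Agent.MR
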