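import Fermat.Agent.MR.Spec
import Fermat.Agent.MR.In.Eigen
import Fermat.Agent.MR.In.Simple
import Fermat.Agent.MR.In.Frob
import Fermat.Agent.MR.In.Blr
import Fermat.Agent.S13.FreyTorsion
import Fermat.Agent.S41.NE.Main

/-!
# Program MR, block `mri` (TRANSFER-IN) : assembly

`mri_in : MraInSpec` and `mri_nonEis : MraNonEisSpec` (the two top-level leaves of block `mri`,
literals of `MR/Spec.lean`).

(A) `mrie_main` (eigenvector) → (B) `mris_main` (minimal stable subspace `U`) → (C) `mrif_main`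
(common quadratic relation on `U` and `E[p]`) → (D) helper2's `mrib_rep_two` (`U ≃ E[p]`
equivariantly) → repackaging as `MraVbar`.
-/

set_option autoImplicit false
set_option linter.unusedSectionVars false
set_option linter.unusedVariables false
set_option linter.style.haveILetI false

noncomputable section

namespace Fermat.Agent.MR

open CongruenceSubgroup ModularCurve AlgebraicCurve Fermat.Agent.G Fermat.Agent.FF
open WeierstrassCurve WeierstrassCurve.Affine WeierstrassCurve.Affine.Point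

local notation "Qb" => AlgebraicClosure ℚ
local notation "GQ" => (AlgebraicClosure ℚ ≃ₐ[ℚ] AlgebraicClosure ℚ)

/-- the Frey curve is an elliptic curve. -/
theorem mri_isElliptic (P : FreyPackage) : P.freyCurve.IsElliptic :=
  ⟨isUnit_iff_ne_zero.mpr (Fermat.Agent.S13.freyCurve_Δ_ne_zero P)⟩

theorem mri_p_ne_two (P : FreyPackage) : P.p ≠ 2 := by
  have := P.hp5
  omega

/-- **(NON-EIS)** -/
theorem mri_nonEis : MraNonEisSpec := by
  intro P N W hN hW hirr
  haveI := mri_isElliptic P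
  obtain ⟨ℓ, hℓ, hℓB, hgood, hℓp, hnd⟩ :=
    Fermat.Agent.S41.s41ne_main P.freyCurve hW P.pp (mri_p_ne_two P) hirr N.primeFactors
  refine ⟨⟨ℓ, hℓ⟩, hgood, ?_, hℓp, ?_⟩
  · intro hd
    exact hℓB (Nat.mem_primeFactors.mpr ⟨hℓ, hd, hN.ne'⟩)
  · intro hd
    apply hnd
    have h1 := (dvd_neg (a := (P.p : ℤ))).mpr hd
    have h2 : -(W.apOfModel ℓ - ((ℓ : ℕ) + 1 : ℤ)) = (ℓ : ℤ) + 1 - W.apOfModel ℓ := by ring
    rw [h2] at h1
    exact h1

/-! ### abstract repackaging -/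

section Pack

variable {G J U E : Type*} [Group G] [AddCommGroup J] [DistribMulAction G J] [AddCommGroup U]
  [AddCommGroup E] [DistribMulAction G E]

theorem mri_pack_stable (f : U →+ J) (act : G → U → U) (hact : ∀ g y, f (act g y) = g • f y)
    (g : G) (x : J) (hx : x ∈ f.range) : g • x ∈ f.range := by
  obtain ⟨y, rfl⟩ := hx
  exact ⟨act g y, hact g y⟩

theorem mri_pack (f : U →+ J) (hf : Function.Injective f) (act : G → U → U)
    (hact : ∀ g y, f (act g y) = g • f y) (e : U ≃+ E) (he : ∀ g y, e (act g y) = g • e y) :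
    ∃ iso : f.range ≃+ E, ∀ (g : G) (x : f.range),
      iso ⟨g • (x : J), mri_pack_stable f act hact g x x.2⟩ = g • iso x := by
  refine ⟨(AddMonoidHom.ofInjective hf).symm.trans e, fun g x => ?_⟩
  obtain ⟨y, rfl⟩ : ∃ y, AddMonoidHom.ofInjective hf y = x :=
    (AddMonoidHom.ofInjective hf).surjective x
  have h1 : (⟨g • ((AddMonoidHom.ofInjective hf y : f.range) : J),
      mri_pack_stable f act hact g _ (AddMonoidHom.ofInjective hf y).2⟩ : f.range)
      = AddMonoidHom.ofInjective hf (act g y) :=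
    Subtype.ext (hact g y).symm
  rw [h1, AddEquiv.trans_apply, AddEquiv.symm_apply_apply, AddEquiv.trans_apply,
    AddEquiv.symm_apply_apply, he]

end Pack

/-! ### simplicity and dimension -/

section Simple

variable (N : ℕ) [NeZero N] (p : ℕ) [Fact p.Prime]

theorem mri_simple_E (E : WeierstrassCurve ℚ)
    (hirr : GaloisRepIsIrreducible (K := Qb) ℚ E p) :
    GclSimple (galoisRepModuleEnd (K := Qb) ℚ E p) :=
  fun U hU => hirr.2 U (fun σ x hx => hU σ x hx)

theorem mri_finrank_E (E : WeierstrassCurve ℚ) [E.IsElliptic] (hp2 : p ≠ 2) :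
    Module.Finite (ZMod p) (Submodule.torsionBy ℤ (E⁄Qb).Point p) ∧
      Module.finrank (ZMod p) (Submodule.torsionBy ℤ (E⁄Qb).Point p) = 2 := by
  have hp : p.Prime := Fact.out
  have hcard : Nat.card (Submodule.torsionBy ℤ (E⁄Qb).Point p) = p ^ 2 :=
    Fermat.Agent.S41.s41net_card_torsionBy_rat E hp hp2
  haveI hfin : Finite (Submodule.torsionBy ℤ (E⁄Qb).Point p) :=
    Nat.finite_of_card_ne_zero (hcard ▸ pow_ne_zero 2 hp.pos.ne')
  haveI : Module.Finite (ZMod p) (Submodule.torsionBy ℤ (E⁄Qb).Point p) := Module.Finite.of_finite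
  refine ⟨inferInstance, ?_⟩
  have h := Module.natCard_eq_pow_finrank (K := ZMod p)
    (V := Submodule.torsionBy ℤ (E⁄Qb).Point p)
  rw [hcard, Nat.card_zmod] at h
  exact (Nat.pow_right_injective hp.two_le h).symm

theorem mri_simple_U (U : Submodule (ZMod p) (gasmJp N p))
    (hU : ∀ σ : GQ, ∀ x ∈ U, JZero.torsionGaloisRep N p σ x ∈ U)
    (hmin : ∀ U' : Submodule (ZMod p) (gasmJp N p), U' ≤ U →
      (∀ (σ : GQ), ∀ x ∈ U', JZero.torsionGaloisRep N p σ x ∈ U') → U' = ⊥ ∨ U' = U) :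
    GclSimple (mrifRhoU N p U hU) := by
  intro U'' hU''
  have hstab : ∀ (σ : GQ), ∀ x ∈ U''.map U.subtype,
      JZero.torsionGaloisRep N p σ x ∈ U''.map U.subtype := by
    intro σ x hx
    obtain ⟨y, hy, rfl⟩ := Submodule.mem_map.mp hx
    exact Submodule.mem_map.mpr ⟨mrifRhoU N p U hU σ y, hU'' σ y hy, rfl⟩
  have hle : U''.map U.subtype ≤ U := by
    intro x hx
    obtain ⟨y, -, rfl⟩ := Submodule.mem_map.mp hx
    exact y.2
  refine (hmin _ hle hstab).elim (fun h0 => Or.inl ?_) (fun h1 => Or.inr ?_)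
  · rw [eq_bot_iff]
    intro y hy
    have h3 : U.subtype y ∈ U''.map U.subtype := Submodule.mem_map_of_mem hy
    have h4 : U.subtype y ∈ (⊥ : Submodule (ZMod p) (gasmJp N p)) := h0.le h3
    exact (Submodule.mem_bot (ZMod p)).mpr (Subtype.ext ((Submodule.mem_bot (ZMod p)).mp h4))
  · rw [eq_top_iff]
    intro x _
    have hx : (x : gasmJp N p) ∈ U''.map U.subtype := h1.ge x.2
    obtain ⟨y, hy, hyx⟩ := Submodule.mem_map.mp hx
    have : y = x := Subtype.ext hyx
    rw [← this]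
    exact hy

end Simple

/-! ### the assembly -/

section Assembly

variable (N : ℕ) [NeZero N] (p : ℕ) [Fact p.Prime]

/-- the inclusion of a subspace of `J₀(N)(ℚ̄)[p]` into `J₀(N)(ℚ̄)`. -/
def mriIncl (U : Submodule (ZMod p) (gasmJp N p)) : U →+ JZero N :=
  (gasmJp N p).subtype.comp U.subtype.toAddMonoidHom

theorem mriIncl_apply (U : Submodule (ZMod p) (gasmJp N p)) (y : U) :
    mriIncl N p U y = ((y : gasmJp N p) : JZero N) := rfl

theorem mriIncl_injective (U : Submodule (ZMod p) (gasmJp N p)) :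
    Function.Injective (mriIncl N p U) :=
  fun y z h => Subtype.ext (Subtype.ext h)

theorem mri_two_ne_zero (hp2 : p ≠ 2) : (2 : ZMod p) ≠ 0 := by
  intro h
  have h1 : ((2 : ℕ) : ZMod p) = 0 := by exact_mod_cast h
  rw [ZMod.natCast_eq_zero_iff] at h1
  have hp : p.Prime := Fact.out
  exact hp2 ((Nat.prime_dvd_prime_iff_eq hp Nat.prime_two).mp h1)

/-- the abstract core of the assembly: a minimal Hecke-eigen stable subspace is `≅ E[p]`. -/
theorem mri_core (E : WeierstrassCurve ℚ) [E.IsElliptic] {W : WeierstrassCurve ℤ}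
    (hW : W.IsIntegralModelOf E) (hp2 : p ≠ 2)
    (hirr : GaloisRepIsIrreducible (K := Qb) ℚ E p)
    (U : Submodule (ZMod p) (gasmJp N p)) (hU0 : U ≠ ⊥) [Module.Finite (ZMod p) U]
    (hU : ∀ σ : GQ, ∀ x ∈ U, JZero.torsionGaloisRep N p σ x ∈ U)
    (hmin : ∀ U' : Submodule (ZMod p) (gasmJp N p), U' ≤ U →
      (∀ (σ : GQ), ∀ x ∈ U', JZero.torsionGaloisRep N p σ x ∈ U') → U' = ⊥ ∨ U' = U)
    (heig : ∀ x ∈ U, ∀ (ℓ : ℕ) (hℓ : ℓ.Prime), W.IsGoodPrimeFor ℓ → ¬ ℓ ∣ N → ℓ ≠ p →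
      heckeOperatorBar N ⟨ℓ, hℓ⟩ ((x : gasmJp N p) : JZero N)
        = W.apOfModel ℓ • ((x : gasmJp N p) : JZero N)) :
    ∃ e : U ≃ₗ[ZMod p] Submodule.torsionBy ℤ (E⁄Qb).Point p,
      ∀ (σ : GQ) (y : U), e (mrifRhoU N p U hU σ y) = σ • e y := by
  have hq := mrif_main N p E hW hp2 U hU heig
  haveI : Nontrivial U := (Submodule.nontrivial_iff_ne_bot).mpr hU0
  have hfr := mri_finrank_E p E hp2
  haveI := hfr.1
  exact hq.elim fun t ht => mrib_rep_two (mri_two_ne_zero p hp2) (mrifRhoU N p U hU)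
    (galoisRepModuleEnd (K := Qb) ℚ E p) t (garChi (κ := ZMod p) p) ht.1 ht.2
    (mri_simple_U N p U hU hmin) (mri_simple_E p E hirr) hfr.2

end Assembly

/-- **(IN)** -/
theorem mri_in : MraInSpec := by
  intro P N _ hcond hpN hirr f W 𝔪 hf hW hmax hpm hcong
  haveI : Fact P.p.Prime := ⟨P.pp⟩
  haveI := mri_isElliptic P
  have hp2 := mri_p_ne_two P
  obtain ⟨x₀, hx₀, hpx₀, heig₀⟩ := mrie_main P N f W 𝔪 hf hmax hpm hcong
  obtain ⟨U, hU0, hUfin, hUst, hUmin, hUeig⟩ := mris_main N P.p (fun ℓ => W.apOfModel ℓ)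
    {ℓ | W.IsGoodPrimeFor ℓ ∧ ¬ ℓ ∣ N ∧ ℓ ≠ P.p} x₀ hx₀ hpx₀
    (fun ℓ hℓ hS => heig₀ ℓ hℓ hS.1 hS.2.1 hS.2.2)
  haveI := hUfin
  obtain ⟨e, he⟩ := mri_core N P.p P.freyCurve hW hp2 hirr U hU0 hUst hUmin
    (fun x hx ℓ hℓ hg hN hp => hUeig x hx ℓ hℓ ⟨hg, hN, hp⟩)
  have hact : ∀ (σ : GQ) (y : U),
      mriIncl N P.p U (mrifRhoU N P.p U hUst σ y) = σ • mriIncl N P.p U y := fun σ y => rfl
  obtain ⟨iso, hiso⟩ := mri_pack (mriIncl N P.p U) (mriIncl_injective N P.p U)
    (fun σ y => mrifRhoU N P.p U hUst σ y) hact e.toAddEquiv he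
  refine ⟨{ V := (mriIncl N P.p U).range
            tors := ?_
            stable := fun σ x hx => mri_pack_stable (mriIncl N P.p U)
              (fun σ y => mrifRhoU N P.p U hUst σ y) hact σ x hx
            iso := iso
            iso_smul := hiso
            eigen := ?_ }⟩
  · rintro x ⟨y, rfl⟩
    rw [mriIncl_apply, ← Nat.cast_smul_eq_nsmul ℤ]
    exact Pic0.mem_torsion.mp (y : gasmJp N P.p).2
  · rintro ℓ hgood hℓN hℓp x ⟨y, rfl⟩
    exact hUeig (y : gasmJp N P.p) y.2 ℓ ℓ.2 ⟨hgood, hℓN, hℓp⟩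

end Fermat.Agent.MR
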